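import Fermat.Agent.LP.Desc.Val
import Fermat.Agent.GR.S.R.Gauss
import Fermat.Agent.GR.E.BR10
import Fermat.Agent.S33.Wire.Triv
import Fermat.Agent.GS.Export

/-!
# LP-DESC, file Gauss: the Gauss valuation subrings of `FF Q̄ N` for varying `N`; dictionary with `NearOne`, `TrivAt`

`up h : FF Q̄ N → FF Q̄ N'` (`N ∣ N'`) is the inclusion.  `𝒪`, `𝒪'` the Gauss rings (`GR.S.R.IsGaussRing`: `spec`, `spec'`).
* `up_mem_of_mem`, `up_mem_nonunits_of_mem`: `spec`, `spec'` are monotone in the level (`BR10_FF_mono`).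
* `up_mem_iff`: `x ∉ 𝒪 ⇒ x⁻¹ ∈ 𝔪_𝒪 ⇒ up x⁻¹ ∈ 𝔪_𝒪' ⇒ up x ∉ 𝒪'`.  `up_mem_nonunits_iff`: similarly.
* `nearOne_iff`: `y = C c * (a / b)`, `a ≡ b`, `a` primitive (so `b` primitive: `S33.ND.isPrim_of_cong` or directly) `↔ y / c - 1 = (a - b) / b ∈ 𝔪_𝒪` (`spec'` with
  `f = a - b`, `g = b`; conversely `a = f + g`, `b = g`; see the end of `GR.S.exists_isRed` in `GR/S/R/Main.lean` for the same computation).
* `nearOne_descent`: `exists_isGaussRing` at both levels, `nearOne_iff`, `up_mem_nonunits_iff`.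
* `trivAt_of_nearOne`: `GS.trivAt_of_powAt hn ⟨1, one_mem _, one_ne_zero, by simpa⟩`.
-/

set_option autoImplicit false
set_option synthInstance.maxHeartbeats 400000

noncomputable section

namespace Fermat.Agent.LP.Desc

open Fermat.Agent.GR Fermat.Agent.GR.E Fermat.Agent.GR.S.R Fermat.Agent.GS Fermat.Agent.GS.FW
  ModularCurve

/-- the inclusion `FF Q̄ N ⊆ FF Q̄ N'`. -/
def up {N N' : ℕ} (h : N ∣ N') : FF Qb N →+* FF Qb N' :=
  (IntermediateField.inclusion (BR10_FF_mono h)).toRingHom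

@[simp] theorem coe_up {N N' : ℕ} (h : N ∣ N') (x : FF Qb N) :
    ((up h x : FF Qb N') : LaurentSeries Qb) = x :=
  IntermediateField.coe_inclusion (BR10_FF_mono h) x

theorem up_mk {N N' : ℕ} (h : N ∣ N') {y : LaurentSeries Qb} (hy : y ∈ FF Qb N) :
    up h ⟨y, hy⟩ = ⟨y, BR10_FF_mono h hy⟩ := Subtype.ext (coe_up h _)

/-- the corresponding algebra structure (use with `letI`). -/
@[reducible] def algUp {N N' : ℕ} (h : N ∣ N') : Algebra (FF Qb N) (FF Qb N') := (up h).toAlgebra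

variable {A : ValuationSubring Qb} {N N' : ℕ} {𝒪 : ValuationSubring (FF Qb N)}
  {𝒪' : ValuationSubring (FF Qb N')}

theorem up_mem_of_mem (h : N ∣ N') (h𝒪 : IsGaussRing A N 𝒪) (h𝒪' : IsGaussRing A N' 𝒪')
    {x : FF Qb N} (hx : x ∈ 𝒪) : up h x ∈ 𝒪' := by
  obtain ⟨f, g, hf, hg, hfi, hgp, hfg⟩ := (h𝒪.spec x).1 hx
  refine (h𝒪'.spec _).2 ⟨f, g, BR10_FF_mono h hf, BR10_FF_mono h hg, hfi, hgp, ?_⟩
  rw [coe_up]
  exact hfg

theorem up_mem_nonunits_of_mem (h : N ∣ N') (h𝒪 : IsGaussRing A N 𝒪)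
    (h𝒪' : IsGaussRing A N' 𝒪') {x : FF Qb N} (hx : x ∈ 𝒪.nonunits) : up h x ∈ 𝒪'.nonunits := by
  obtain ⟨f, g, hf, hg, hfi, hgp, hfg⟩ := (h𝒪.spec' x).1 hx
  refine (h𝒪'.spec' _).2 ⟨f, g, BR10_FF_mono h hf, BR10_FF_mono h hg, hfi, hgp, ?_⟩
  rw [coe_up]
  exact hfg

theorem up_mem_iff (h : N ∣ N') (h𝒪 : IsGaussRing A N 𝒪) (h𝒪' : IsGaussRing A N' 𝒪')
    (x : FF Qb N) : up h x ∈ 𝒪' ↔ x ∈ 𝒪 := by
  refine ⟨fun hx => ?_, up_mem_of_mem h h𝒪 h𝒪'⟩
  by_contra hn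
  have h1 : x⁻¹ ∈ 𝒪.nonunits := (ValuationSubring.inv_mem_nonunits_iff 𝒪).2 (Or.inr hn)
  have h2 := up_mem_nonunits_of_mem h h𝒪 h𝒪' h1
  rw [map_inv₀, ValuationSubring.inv_mem_nonunits_iff, map_eq_zero] at h2
  rcases h2 with rfl | h2
  · exact hn (zero_mem _)
  · exact h2 hx

theorem up_mem_nonunits_iff (h : N ∣ N') (h𝒪 : IsGaussRing A N 𝒪) (h𝒪' : IsGaussRing A N' 𝒪')
    (x : FF Qb N) : up h x ∈ 𝒪'.nonunits ↔ x ∈ 𝒪.nonunits := by
  rw [ValuationSubring.mem_nonunits_iff_or, ValuationSubring.mem_nonunits_iff_or, map_eq_zero,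
    ← map_inv₀, up_mem_iff h h𝒪 h𝒪']

theorem Gauss_add_mem_nonunits {K : Type*} [Field K] (A : ValuationSubring K) {x y : K}
    (hx : x ∈ A.nonunits) (hy : y ∈ A.nonunits) : x + y ∈ A.nonunits := by
  rw [ValuationSubring.mem_nonunits_iff] at *
  exact Valuation.map_add_lt _ hx hy

theorem Gauss_coe_algebraMap (N : ℕ) (c : Qb) :
    ((algebraMap Qb (FF Qb N) c : FF Qb N) : LaurentSeries Qb) = HahnSeries.C c := by
  rw [IntermediateField.coe_algebraMap_apply, algebraMap_laurentSeries_eq_single]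
  rfl

theorem Gauss_coe_div_sub_one (y : FF Qb N) (c : Qb) :
    ((y / algebraMap Qb (FF Qb N) c - 1 : FF Qb N) : LaurentSeries Qb) =
      (y : LaurentSeries Qb) / HahnSeries.C c - 1 := by
  rw [AddSubgroupClass.coe_sub, IntermediateField.coe_div, Gauss_coe_algebraMap,
    IntermediateField.coe_one]

theorem nearOne_iff (h𝒪 : IsGaussRing A N 𝒪) (y : FF Qb N) :
    NearOne A N (y : LaurentSeries Qb) ↔
      ∃ c : Qb, c ≠ 0 ∧ y / algebraMap Qb (FF Qb N) c - 1 ∈ 𝒪.nonunits := by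
  constructor
  · rintro ⟨c, a, b, hc, ha, hb, hpa, hib, hab, hy⟩
    have hpb : IsPrim A b := by
      refine ⟨hib, ?_⟩
      obtain ⟨n, hn⟩ := hpa.2
      refine ⟨n, fun hbn => hn ?_⟩
      have h2 := Gauss_add_mem_nonunits A (hab n) hbn
      rwa [sub_add_cancel] at h2
    have hb0 : b ≠ 0 := by
      rintro rfl
      obtain ⟨n, hn⟩ := hpb.2
      exact hn (by simp)
    have hCc : (HahnSeries.C c : LaurentSeries Qb) ≠ 0 := by simpa using hc
    refine ⟨c, hc, ?_⟩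
    rw [h𝒪.spec']
    refine ⟨a - b, b, sub_mem ha hb, hb, fun n => ?_, hpb, ?_⟩
    · rw [HahnSeries.coeff_sub]
      exact hab n
    · rw [Gauss_coe_div_sub_one, hy]
      field_simp
  · rintro ⟨c, hc, hz⟩
    rw [h𝒪.spec'] at hz
    obtain ⟨f, g, hf, hg, hf0, hgp, hfg⟩ := hz
    have hg0 : g ≠ 0 := by
      rintro rfl
      obtain ⟨n, hn⟩ := hgp.2
      exact hn (by simp)
    have hCc : (HahnSeries.C c : LaurentSeries Qb) ≠ 0 := by simpa using hc
    refine ⟨c, f + g, g, hc, add_mem hf hg, hg, ⟨fun n => ?_, ?_⟩, hgp.1, fun n => ?_, ?_⟩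
    · rw [HahnSeries.coeff_add]
      exact A.add_mem _ _ (A.nonunits_subset (hf0 n)) (hgp.1 n)
    · obtain ⟨n, hn⟩ := hgp.2
      refine ⟨n, fun hmem' => hn ?_⟩
      rw [HahnSeries.coeff_add] at hmem'
      have h1 : -f.coeff n ∈ A.nonunits := by
        rw [ValuationSubring.mem_nonunits_iff, Valuation.map_neg,
          ← ValuationSubring.mem_nonunits_iff]
        exact hf0 n
      have h2 := Gauss_add_mem_nonunits A hmem' h1
      rwa [add_comm (f.coeff n), add_neg_cancel_right] at h2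
    · rw [HahnSeries.coeff_add, add_sub_cancel_right]
      exact hf0 n
    · rw [Gauss_coe_div_sub_one] at hfg
      rw [← hfg]
      field_simp
      ring

/-- `NearOne` does not depend on the level. -/
theorem nearOne_descent (h : N ∣ N') {y : LaurentSeries Qb} (hy : y ∈ FF Qb N)
    (H : NearOne A N' y) : NearOne A N y := by
  obtain ⟨𝒪, h𝒪⟩ := exists_isGaussRing A N
  obtain ⟨𝒪', h𝒪'⟩ := exists_isGaussRing A N'
  have H' : NearOne A N' ((up h ⟨y, hy⟩ : FF Qb N') : LaurentSeries Qb) := by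
    rw [coe_up]
    exact H
  obtain ⟨c, hc, hz⟩ := (nearOne_iff h𝒪' (up h ⟨y, hy⟩)).1 H'
  refine (nearOne_iff h𝒪 (⟨y, hy⟩ : FF Qb N)).2 ⟨c, hc, ?_⟩
  rw [← up_mem_nonunits_iff h h𝒪 h𝒪']
  have e : up h ((⟨y, hy⟩ : FF Qb N) / algebraMap Qb (FF Qb N) c - 1) =
      up h ⟨y, hy⟩ / algebraMap Qb (FF Qb N') c - 1 := by
    apply Subtype.ext
    rw [coe_up, Gauss_coe_div_sub_one, Gauss_coe_div_sub_one, coe_up]
  rw [e]
  exact hz

/-- a function which is near one is trivial modulo `n`-th powers. -/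
theorem trivAt_of_nearOne {n : ℕ} (hn : 0 < n) {y : LaurentSeries Qb} (H : NearOne A N y) :
    TrivAt N n A y :=
  GS.trivAt_of_powAt hn ⟨1, one_mem _, one_ne_zero, by simpa using H⟩

end Fermat.Agent.LP.Desc
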