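import Fermat.Agent.LP.Desc.Gauss
import Fermat.Agent.S33.ND.Dense
import Fermat.Agent.S33.ND.Hecke
import Fermat.Agent.GS.Export

/-!
# LP-DESC, file Triv: descent of `TrivAt` from level `p * M0` to level `M0`; transfer of (NT), (EIG)
-/

set_option autoImplicit false
set_option synthInstance.maxHeartbeats 400000

noncomputable section

namespace Fermat.Agent.LP.Desc

open Fermat.Agent.GR Fermat.Agent.GR.E Fermat.Agent.GR.S.R Fermat.Agent.GS Fermat.Agent.GS.FW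
  ModularCurve

variable {A : ValuationSubring Qb} {p M0 n : ℕ}

/-- (D5) a function of level `M0` which is trivial at level `p * M0` is trivial at level `M0`. -/
theorem trivAt_descent_p [NeZero p] [NeZero M0] (hp : p.Prime) (hpM : ¬ p ∣ M0)
    (hA : A.LiesOverPrime p) (hn : 0 < n) {X : LaurentSeries Qb} (hX : X ∈ FF Qb M0)
    (H : TrivAt (p * M0) n A X) : TrivAt M0 n A X := by
  obtain ⟨z, hz, hz0, hnear⟩ := powAt_of_trivAt H
  obtain ⟨z0, hz0mem, hz00, hnear'⟩ := S33.ND.dense hp hpM hA hz hz0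
  apply trivAt_of_powAt hn
  refine ⟨z0, hz0mem, hz00, ?_⟩
  apply nearOne_descent (Dvd.intro_left p rfl) (mul_mem hX (pow_mem hz0mem n))
  have h1 := hnear.div (hnear'.pow n)
  have e : X * z ^ n / (z / z0) ^ n = X * z0 ^ n := by
    rw [div_pow]
    have := pow_ne_zero n hz0
    have := pow_ne_zero n hz00
    field_simp
  rwa [e] at h1

/-- (NT). -/
theorem not_trivAt_of_nearOne [NeZero p] (hn : 0 < n) {u U : LaurentSeries Qb}
    (hnear : NearOne A (p * M0) (u / U)) (hU0 : U ≠ 0) (hNT : ¬ TrivAt (p * M0) n A u) :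
    ¬ TrivAt M0 n A U := by
  intro h
  apply hNT
  have h1 := S33.trivAt_mul (S33.trivAt_mono (Dvd.intro_left p rfl) h) (trivAt_of_nearOne hn hnear)
  rwa [mul_div_cancel₀ _ hU0] at h1

/-- (EIG). -/
theorem eig_descent [NeZero p] [NeZero M0] (hp : p.Prime) (hpM : ¬ p ∣ M0)
    (hA : A.LiesOverPrime p) (hn : 0 < n) {u U : LaurentSeries Qb} (hU : U ∈ FF Qb M0)
    (hU0 : U ≠ 0) (hnear : NearOne A (p * M0) (u / U)) (ℓ : ℕ) [NeZero ℓ] (hℓ : ℓ.Prime)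
    (hℓN : ¬ ℓ ∣ p * M0) (ζ : Qbˣ) (hζ : IsPrimitiveRoot ζ ℓ) (e : ℕ)
    (H : KummerEquiv (p * M0) n (heckeMulT ℓ ζ u) (u ^ e)) :
    TrivAt M0 n A (heckeMulT ℓ ζ U / U ^ e) := by
  haveI : Fact ℓ.Prime := ⟨hℓ⟩
  haveI : NeZero (p * M0) := ⟨mul_ne_zero (NeZero.ne p) (NeZero.ne M0)⟩
  have hℓM : ¬ ℓ ∣ M0 := fun h => hℓN (Dvd.dvd.mul_left h p)
  have hℓp : ℓ ≠ p := by
    rintro rfl
    exact hℓN (Dvd.intro M0 rfl)
  have hTU : heckeMulT ℓ ζ U ∈ FF Qb M0 := GR.B.heckeMulT_mem_FF_Qbar ℓ hℓM ζ hζ hU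
  apply trivAt_descent_p hp hpM hA hn (div_mem hTU (pow_mem hU e))
  have hu0 : u ≠ 0 := by
    rintro rfl
    rw [zero_div] at hnear
    exact hnear.ne_zero rfl
  have hTU0 : heckeMulT ℓ ζ U ≠ 0 := heckeMulT_ne_zero ℓ ζ hζ hU0
  have hTu0 : heckeMulT ℓ ζ u ≠ 0 := heckeMulT_ne_zero ℓ ζ hζ hu0
  -- `T u / T U` and `(u / U) ^ e` are near one
  have h1 : NearOne A (p * M0) (heckeMulT ℓ ζ u / heckeMulT ℓ ζ U) := by
    have := S33.ND.nearOne_heckeMulT hp hA hℓ hℓp hℓN ζ hζ hnear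
    rwa [heckeMulT_div ℓ ζ hζ] at this
  have h2 : NearOne A (p * M0) ((u / U) ^ e) := hnear.pow e
  have h3 : TrivAt (p * M0) n A ((u / U) ^ e / (heckeMulT ℓ ζ u / heckeMulT ℓ ζ U)) :=
    trivAt_of_nearOne hn (h2.div h1)
  -- `T u / u ^ e` is an `n`-th power
  obtain ⟨z, hz, hz0, hzeq⟩ := H
  have h4 : KummerEquiv (p * M0) n ((u / U) ^ e / (heckeMulT ℓ ζ u / heckeMulT ℓ ζ U))
      (heckeMulT ℓ ζ U / U ^ e) := by
    refine ⟨z⁻¹, inv_mem hz, inv_ne_zero hz0, ?_⟩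
    rw [div_pow, hzeq, inv_pow]
    have := pow_ne_zero n hz0
    have := pow_ne_zero e hU0
    field_simp
  exact S33.trivAt_congr h3 h4

end Fermat.Agent.LP.Desc
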