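import Fermat.Agent.LP.Desc.Step
import Fermat.Agent.LP.Desc.Triv
import Fermat.Agent.LP.Iface

/-!
# LP-DESC, main theorem: descent from level `p * M0` (auxiliary level `p * (4 * M0)`) to level `M0`

`u2` a function of level `p * M0` which is a unit times a `p`-th power at every valuation subring
`V ≤ 𝒪(p * (4 * M0))`, not trivial at the Gauss valuation, eigen for the `T_ℓ` modulo `p`-th powers.
Then there is `U` of level `M0`, `u2 / U` near one, with the same properties at level `M0`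
(the eigen property modulo functions which are trivial at the Gauss valuation).
-/

set_option autoImplicit false
set_option synthInstance.maxHeartbeats 400000

noncomputable section

namespace Fermat.Agent.LP.Desc

open Fermat.Agent.GR Fermat.Agent.GR.E Fermat.Agent.GR.S.R Fermat.Agent.GS Fermat.Agent.GS.FW
  ModularCurve

variable {A : ValuationSubring Qb} {p M0 : ℕ}

theorem isGaussRing_unique {N : ℕ} {𝒪 𝒪' : ValuationSubring (FF Qb N)} (h : IsGaussRing A N 𝒪)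
    (h' : IsGaussRing A N 𝒪') : 𝒪 = 𝒪' := by
  ext u
  rw [h.spec, h'.spec]

theorem desc_main [NeZero p] [NeZero M0] (hp : p.Prime) (h5 : 5 ≤ p) (hpM : ¬ p ∣ M0)
    (hA : A.LiesOverPrime p) (𝒪₁ : ValuationSubring (FF Qb (p * (4 * M0))))
    (h𝒪₁ : IsGaussRing A (p * (4 * M0)) 𝒪₁) (u2 : FF Qb (p * (4 * M0)))
    (hu2 : (u2 : LaurentSeries Qb) ∈ FF Qb (p * M0)) (hu20 : u2 ≠ 0)
    (hNT : ¬ TrivAt (p * M0) p A u2)
    (hPD : ∀ V : ValuationSubring (FF Qb (p * (4 * M0))), V ≤ 𝒪₁ → PDivAt V p u2) :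
    ∃ U : FF Qb M0, U ≠ 0 ∧ NearOne A (p * M0) ((u2 : LaurentSeries Qb) / U) ∧
      (∀ 𝒪 : ValuationSubring (FF Qb M0), IsGaussRing A M0 𝒪 →
        ∀ V : ValuationSubring (FF Qb M0), V ≤ 𝒪 → PDivAt V p U) ∧
      ¬ TrivAt M0 p A U ∧
      ∀ (ℓ : ℕ) [NeZero ℓ] (ζ : Qbˣ), ℓ.Prime → ¬ ℓ ∣ p * M0 → IsPrimitiveRoot ζ ℓ → ∀ e : ℕ,
        KummerEquiv (p * M0) p (heckeMulT ℓ ζ (u2 : LaurentSeries Qb))
          ((u2 : LaurentSeries Qb) ^ e) →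
        TrivAt M0 p A (heckeMulT ℓ ζ (U : LaurentSeries Qb) / (U : LaurentSeries Qb) ^ e) := by
  have hu20' : (u2 : LaurentSeries Qb) ≠ 0 := fun h => hu20 (Subtype.ext h)
  obtain ⟨z0, hz0mem, hz00, hnear⟩ := S33.ND.dense hp hpM hA hu2 hu20'
  have hd : p * M0 ∣ p * (4 * M0) := Nat.mul_dvd_mul_left p (Dvd.intro_left 4 rfl)
  have H1 : PDivLevel A (p * (4 * M0)) p (u2 : LaurentSeries Qb) := by
    refine ⟨u2.2, fun 𝒪 h𝒪 V hV => ?_⟩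
    rw [isGaussRing_unique h𝒪 h𝒪₁] at hV
    exact hPD V hV
  have H2 : PDivLevel A (p * (4 * M0)) p z0 := by
    apply H1.of_nearOne hp.pos
    have := (hnear.mono hd).inv
    rwa [inv_div] at this
  obtain ⟨hz, H3⟩ := pdivLevel_descent hp h5 hA hpM hz0mem H2
  refine ⟨⟨z0, hz0mem⟩, fun h => hz00 (congrArg Subtype.val h), hnear, H3,
    not_trivAt_of_nearOne hp.pos hnear hz00 hNT, ?_⟩
  intro ℓ _ ζ hℓ hℓN hζ e H
  exact eig_descent hp hpM hA hp.pos hz0mem hz00 hnear ℓ hℓ hℓN ζ hζ e H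

/-- the same in the language of `LP/Iface.lean` (the hypotheses of `OldOut`). -/
theorem desc_iface [NeZero p] [NeZero M0] (hp : p.Prime) (h5 : 5 ≤ p) (hpM : ¬ p ∣ M0)
    (hA : A.LiesOverPrime p) (𝒪₁ : ValuationSubring (FF Qb (p * (4 * M0))))
    (h𝒪₁ : IsGaussRing A (p * (4 * M0)) 𝒪₁) (S0 : Set ℕ) (a : ℕ → ℤ)
    (hS0 : ∀ ℓ : ℕ, ℓ.Prime → ℓ ∣ p * M0 → ℓ ∈ S0) (u2 : FF Qb (p * (4 * M0)))
    (hK : IsKummer (N := p * M0) p (u2 : LaurentSeries Qb))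
    (hE : IsEig (p * M0) p S0 a u2) (hNT : ¬ TrivAt (p * M0) p A u2)
    (hPD : ∀ V : ValuationSubring (FF Qb (p * (4 * M0))), V ≤ 𝒪₁ → PDivAt V p u2) :
    ∃ U : FF Qb M0, U ≠ 0 ∧
      (∀ 𝒪 : ValuationSubring (FF Qb M0), IsGaussRing A M0 𝒪 →
        ∀ V : ValuationSubring (FF Qb M0), V ≤ 𝒪 → PDivAt V p U) ∧
      ¬ TrivAt M0 p A U ∧
      ∀ (ℓ : ℕ) [NeZero ℓ] (ζ : Qbˣ), ℓ.Prime → ℓ ∉ S0 → IsPrimitiveRoot ζ ℓ → ∀ e : ℕ,
        (e : ZMod p) = (a ℓ : ZMod p) →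
        TrivAt M0 p A (heckeMulT ℓ ζ (U : LaurentSeries Qb) / (U : LaurentSeries Qb) ^ e) := by
  obtain ⟨hu0, hu, -⟩ := hK
  obtain ⟨U, hU0, -, h1, h2, h3⟩ := desc_main hp h5 hpM hA 𝒪₁ h𝒪₁ u2 hu
    (fun h => hu0 (congrArg Subtype.val h)) hNT hPD
  refine ⟨U, hU0, h1, h2, ?_⟩
  intro ℓ _ ζ hℓ hℓS hζ e he
  exact h3 ℓ ζ hℓ (fun hd => hℓS (hS0 ℓ hℓ hd)) hζ e (hE ℓ ζ hℓ hℓS hζ e he)

end Fermat.Agent.LP.Desc
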