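import Fermat.Agent.LP.Desc.Main

/-!
# LP-DESC: `OldOut` (of `LP/Iface.lean`) from the core theorem of LP-OLD (`LP.Old.old_core`, in hypothesis form)
-/

set_option autoImplicit false
set_option synthInstance.maxHeartbeats 400000

noncomputable section

namespace Fermat.Agent.LP.Desc

open Fermat.Agent.GR Fermat.Agent.GR.E Fermat.Agent.GR.S.R Fermat.Agent.GS Fermat.Agent.GS.FW
  ModularCurve

variable {A : ValuationSubring Qb} {p M0 : ℕ}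

/-- the statement of `LP.Old.old_core` at `(M0, p, A)`. -/
def OldCore (p M0 : ℕ) [NeZero M0] (A : ValuationSubring Qb) : Prop :=
  ∀ (S0 : Set ℕ), p ∈ S0 → (∀ q : ℕ, q.Prime → q ∣ M0 → q ∈ S0) → ∀ (a : ℕ → ℤ)
    (𝒪 : ValuationSubring (FF Qb M0)), IsGaussRing A M0 𝒪 → ∀ U : FF Qb M0, U ≠ 0 →
    (∀ V : ValuationSubring (FF Qb M0), V ≤ 𝒪 → ∃ c : FF Qb M0, c ≠ 0 ∧ c ^ p * U ∈ V ∧
      (c ^ p * U)⁻¹ ∈ V) →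
    ¬ GS.TrivAt M0 p A (U : LaurentSeries Qb) →
    (∀ (ℓ : ℕ) [NeZero ℓ], ℓ.Prime → ¬ ℓ ∣ M0 → ℓ ∉ S0 → ∃ ζ : Qbˣ, IsPrimitiveRoot ζ ℓ ∧
      GS.TrivAt M0 p A
        (heckeMulT ℓ ζ (U : LaurentSeries Qb) * ((U : LaurentSeries Qb) ^ (a ℓ))⁻¹)) →
    ∃ χ : CuspForm.heckeAlgebra M0 2 S0 →+* ZMod p,
      ∀ (ℓ : ℕ) (hℓ : ℓ.Prime) (hℓN : ¬ ℓ ∣ M0) (hℓS : ℓ ∉ S0),
        χ (CuspForm.heckeAlgebra.T hℓ hℓN hℓS) = (a ℓ : ZMod p)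

/-- change of the exponent modulo `p`. -/
theorem trivAt_zpow_of_pow {N : ℕ} (hp : 0 < p) {T U : LaurentSeries Qb} (hU : U ∈ FF Qb N)
    (hU0 : U ≠ 0) (e : ℕ) (a : ℤ) (hea : (e : ZMod p) = (a : ZMod p))
    (H : TrivAt N p A (T / U ^ e)) : TrivAt N p A (T * (U ^ a)⁻¹) := by
  have h1 : ((e : ℤ) : ZMod p) = (a : ZMod p) := by
    rw [← hea]
    simp
  obtain ⟨k, hk⟩ : (p : ℤ) ∣ (e : ℤ) - a := by
    rw [← ZMod.intCast_zmod_eq_zero_iff_dvd]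
    push_cast
    rw [← hea]
    simp
  apply S33.trivAt_congr H
  refine ⟨U ^ k, zpow_mem hU k, zpow_ne_zero k hU0, ?_⟩
  have h2 : (U ^ k) ^ p = U ^ ((e : ℤ) - a) := by
    rw [hk, ← zpow_natCast, ← zpow_mul, mul_comm]
  rw [h2, zpow_sub₀ hU0, zpow_natCast]
  have := pow_ne_zero e hU0
  have := zpow_ne_zero a hU0
  field_simp

theorem oldOut_of [NeZero M0] (hp : p.Prime) (h5 : 5 ≤ p) (hpM : ¬ p ∣ M0)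
    (hA : A.LiesOverPrime p) (core : OldCore p M0 A) : OldOut p M0 A := by
  intro 𝒪₁ h𝒪₁ S0 a hS0 u2 hK hE hNT hPD
  haveI : NeZero p := ⟨hp.ne_zero⟩
  have hS0' : ∀ ℓ : ℕ, ℓ.Prime → ℓ ∣ p * M0 → ℓ ∈ (S0 : Set ℕ) := fun ℓ hℓ hd =>
    hS0 ℓ hℓ (hd.trans (Nat.mul_dvd_mul_left p (Dvd.intro_left 4 rfl)))
  obtain ⟨U, hU0, h1, h2, h3⟩ := desc_iface hp h5 hpM hA 𝒪₁ h𝒪₁ (S0 : Set ℕ) a hS0' u2 hK hE hNT hPD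
  obtain ⟨𝒪, h𝒪⟩ := exists_isGaussRing A M0
  have hU0' : (U : LaurentSeries Qb) ≠ 0 := fun h => hU0 (Subtype.ext h)
  refine core (S0 : Set ℕ) (hS0' p hp (Dvd.intro M0 rfl))
    (fun q hq hd => hS0' q hq (Dvd.dvd.mul_left hd p)) a 𝒪 h𝒪 U hU0 (h1 𝒪 h𝒪) h2 ?_
  intro ℓ _ hℓ _ hℓS
  obtain ⟨ζ, hζ⟩ := S33.ND.Dense_exists_primitiveRoot ℓ
  refine ⟨ζ, hζ, ?_⟩
  obtain ⟨e, he⟩ : ∃ e : ℕ, (e : ZMod p) = (a ℓ : ZMod p) :=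
    ⟨((a ℓ : ZMod p)).val, by rw [ZMod.natCast_val, ZMod.cast_id', id]⟩
  exact trivAt_zpow_of_pow hp.pos U.2 hU0' e (a ℓ) he (h3 ℓ ζ hℓ hℓS hζ e he)

end Fermat.Agent.LP.Desc
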