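import Fermat.Agent.LP.Desc.Gauss
import Fermat.Agent.S33.ND.Dense
import Fermat.Agent.GT.EMB.Norm2

/-!
# LP-DESC, file Step: descent of the local `p`-divisibility along `M0 ∣ 2 M0 ∣ 4 M0 ∣ p (4 M0)`

`PDivLevel A N p y`: `y ∈ FF Q̄ N` is a unit times a `p`-th power at every valuation subring `V ≤ 𝒪(N)` (`𝒪(N)` the Gauss ring of `A`).

* `pdivLevel_descent_of_lt`: `V₀ ≤ 𝒪(N)`; `letI := algUp h`; `EIS.exists_le_comap_eq (up h) 𝒪(N') V₀` (`up_mem_of_mem`) gives `V ≤ 𝒪(N')`, `V ∩ FF N = V₀`;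
  `vdiv_descent_of_finrank_lt` (`finrank = relfinrank`: `GT.EMB.Norm2_finrank_inclusion`; finite-dimensional since `finrank ≠ 0`, `GT.Brg.relfinrank_FF_ne_zero` or
  directly from `BR10_relfinrank_j`; `R.exists_isGaussRing` for the existence of `𝒪(N')`).
* `pdivLevel_descent_p`: the same with `vdiv_descent_of_res`; `hres` from `S33.ND.dense` + `nearOne_iff` (`f := c * z0`).
* `relfinrank_two_le`, `relfinrank_four`: `relfinrank_mul_relfinrank (BR10_j_le _) (BR10_FF_mono _)`, `BR10_relfinrank_j`, `S20.AR.dedekindPsi_mul_of_dvd`,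
  `S20.AR.dedekindPsi_mul_of_not_dvd` (see the proof of `GR.E.relfinrank_FF_mul_prime`), `4 * N = 2 * (2 * N)`.
-/

set_option autoImplicit false
set_option synthInstance.maxHeartbeats 400000

noncomputable section

namespace Fermat.Agent.LP.Desc

open Fermat.Agent.GR Fermat.Agent.GR.E Fermat.Agent.GR.S.R Fermat.Agent.GS Fermat.Agent.GS.FW
  ModularCurve

/-- `y` is a unit times a `p`-th power at every point of the fibre at `A` of the level `N`. -/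
def PDivLevel (A : ValuationSubring Qb) (N p : ℕ) (y : LaurentSeries Qb) : Prop :=
  ∃ hy : y ∈ FF Qb N, ∀ 𝒪 : ValuationSubring (FF Qb N), IsGaussRing A N 𝒪 →
    ∀ V : ValuationSubring (FF Qb N), V ≤ 𝒪 → LP.EIS.VDiv V p (⟨y, hy⟩ : FF Qb N)

variable {A : ValuationSubring Qb} {p : ℕ}

theorem Step_relfinrank_ne_zero {N N' : ℕ} [NeZero N] [NeZero N'] (h : N ∣ N') :
    (FF Qb N).relfinrank (FF Qb N') ≠ 0 := by
  have h1 := IntermediateField.relfinrank_mul_relfinrank (BR10_j_le N) (BR10_FF_mono h)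
  rw [BR10_relfinrank_j, BR10_relfinrank_j] at h1
  have h2 : dedekindPsi N' ≠ 0 := by
    rw [← Fermat.Agent.S24.card_cosets]
    exact Nat.card_pos.ne'
  intro h0
  rw [h0, mul_zero] at h1
  exact h2 h1.symm

theorem Step_le {N N' : ℕ} (h : N ∣ N') {𝒪 : ValuationSubring (FF Qb N)}
    (h𝒪 : IsGaussRing A N 𝒪) {𝒪' : ValuationSubring (FF Qb N')} (h𝒪' : IsGaussRing A N' 𝒪')
    (V₀ : ValuationSubring (FF Qb N)) (hV₀ : V₀ ≤ 𝒪) : V₀ ≤ 𝒪'.comap (up h) := by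
  intro x hx
  rw [ValuationSubring.mem_comap]
  exact up_mem_of_mem h h𝒪 h𝒪' (hV₀ hx)

theorem Step_ext {N N' : ℕ} (h : N ∣ N') {𝒪 : ValuationSubring (FF Qb N)}
    (h𝒪 : IsGaussRing A N 𝒪) {𝒪' : ValuationSubring (FF Qb N')} (h𝒪' : IsGaussRing A N' 𝒪')
    (V₀ : ValuationSubring (FF Qb N)) (hV₀ : V₀ ≤ 𝒪) :
    ∃ V : ValuationSubring (FF Qb N'), V ≤ 𝒪' ∧ V.comap (up h) = V₀ :=
  LP.EIS.exists_le_comap_eq (up h) 𝒪' V₀ (Step_le h h𝒪 h𝒪' V₀ hV₀)

theorem pdivLevel_descent_of_lt (hp : p.Prime) {N N' : ℕ} [NeZero N] [NeZero N'] (h : N ∣ N')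
    (hd : (FF Qb N).relfinrank (FF Qb N') < p) {y : LaurentSeries Qb} (hy : y ∈ FF Qb N)
    (H : PDivLevel A N' p y) : PDivLevel A N p y := by
  obtain ⟨hy', H⟩ := H
  refine ⟨hy, fun 𝒪 h𝒪 V₀ hV₀ => ?_⟩
  obtain ⟨𝒪', h𝒪'⟩ := exists_isGaussRing A N'
  letI := algUp h
  obtain ⟨V, hV, hcomap⟩ := Step_ext h h𝒪 h𝒪' V₀ hV₀
  have hfr : Module.finrank (FF Qb N) (FF Qb N') = (FF Qb N).relfinrank (FF Qb N') :=
    GT.EMB.Norm2_finrank_inclusion (BR10_FF_mono h)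
  have hne := Step_relfinrank_ne_zero h
  haveI : FiniteDimensional (FF Qb N) (FF Qb N') :=
    Module.finite_of_finrank_pos (by rw [hfr]; omega)
  refine vdiv_descent_of_finrank_lt hp (by rw [hfr]; exact hd) V V₀ hcomap ?_
  have e : algebraMap (FF Qb N) (FF Qb N') ⟨y, hy⟩ = ⟨y, hy'⟩ := up_mk h hy
  rw [e]
  exact H 𝒪' h𝒪' V hV

theorem pdivLevel_descent_p (hp : p.Prime) (hA : A.LiesOverPrime p) {N : ℕ} [NeZero N]
    (hpN : ¬ p ∣ N) {y : LaurentSeries Qb} (hy : y ∈ FF Qb N) (H : PDivLevel A (p * N) p y) :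
    PDivLevel A N p y := by
  obtain ⟨hy', H⟩ := H
  haveI : NeZero p := ⟨hp.ne_zero⟩
  have h : N ∣ p * N := Dvd.intro_left p rfl
  refine ⟨hy, fun 𝒪 h𝒪 V₀ hV₀ => ?_⟩
  obtain ⟨𝒪', h𝒪'⟩ := exists_isGaussRing A (p * N)
  letI := algUp h
  obtain ⟨V, hV, hcomap⟩ := Step_ext h h𝒪 h𝒪' V₀ hV₀
  refine vdiv_descent_of_res 𝒪' V hV V₀ hcomap ?_ ?_
  · intro z hz
    obtain ⟨z0, hz0m, hz00, hnear⟩ := S33.ND.dense hp hpN hA z.2
      (fun h0 => hz (Subtype.ext h0))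
    have hmem : (z : LaurentSeries Qb) / z0 ∈ FF Qb (p * N) := div_mem z.2 (BR10_FF_mono h hz0m)
    obtain ⟨c, hc, hcm⟩ := (nearOne_iff h𝒪' (⟨(z : LaurentSeries Qb) / z0, hmem⟩ :
      FF Qb (p * N))).mp hnear
    have hc' : algebraMap Qb (FF Qb N) c ≠ 0 := by
      rw [Ne, map_eq_zero]
      exact hc
    refine ⟨algebraMap Qb (FF Qb N) c * ⟨z0, hz0m⟩,
      mul_ne_zero hc' (fun h0 => hz00 (congrArg Subtype.val h0)), ?_⟩
    have e : z / algebraMap (FF Qb N) (FF Qb (p * N)) (algebraMap Qb (FF Qb N) c * ⟨z0, hz0m⟩)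
        = (⟨(z : LaurentSeries Qb) / z0, hmem⟩ : FF Qb (p * N)) / algebraMap Qb (FF Qb (p * N)) c := by
      apply Subtype.ext
      change (z : LaurentSeries Qb) / (algebraMap Qb (LaurentSeries Qb) c * z0)
        = (z : LaurentSeries Qb) / z0 / algebraMap Qb (LaurentSeries Qb) c
      rw [div_div, mul_comm z0]
    rw [e]
    exact hcm
  · have e : algebraMap (FF Qb N) (FF Qb (p * N)) ⟨y, hy⟩ = ⟨y, hy'⟩ := up_mk h hy
    rw [e]
    exact H 𝒪' h𝒪' V hV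

theorem Step_relfinrank_mul (N : ℕ) [NeZero N] :
    (FF Qb N).relfinrank (FF Qb (2 * N)) * dedekindPsi N = dedekindPsi (2 * N) := by
  have : NeZero (2 * N) := ⟨mul_ne_zero (by norm_num) (NeZero.ne N)⟩
  have h1 := IntermediateField.relfinrank_mul_relfinrank (BR10_j_le N)
    (BR10_FF_mono (Dvd.intro_left 2 rfl : N ∣ 2 * N))
  rw [BR10_relfinrank_j, BR10_relfinrank_j, mul_comm] at h1
  exact h1

theorem Step_dedekindPsi_ne_zero (N : ℕ) [NeZero N] : dedekindPsi N ≠ 0 := by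
  rw [← Fermat.Agent.S24.card_cosets]
  exact Nat.card_pos.ne'

theorem relfinrank_two_le (N : ℕ) [NeZero N] : (FF Qb N).relfinrank (FF Qb (2 * N)) ≤ 3 := by
  have h1 := Step_relfinrank_mul N
  have h2 := Step_dedekindPsi_ne_zero N
  by_cases h : 2 ∣ N
  · rw [Fermat.Agent.S20.AR.dedekindPsi_mul_of_dvd (NeZero.ne N) h (by norm_num)] at h1
    have := Nat.eq_of_mul_eq_mul_right (Nat.pos_of_ne_zero h2) h1
    omega
  · rw [Fermat.Agent.S20.AR.dedekindPsi_mul_of_not_dvd Nat.prime_two (NeZero.ne N) h] at h1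
    have := Nat.eq_of_mul_eq_mul_right (Nat.pos_of_ne_zero h2) h1
    omega

theorem relfinrank_four (N : ℕ) [NeZero N] : (FF Qb (2 * N)).relfinrank (FF Qb (4 * N)) = 2 := by
  have : NeZero (2 * N) := ⟨mul_ne_zero (by norm_num) (NeZero.ne N)⟩
  have h1 := Step_relfinrank_mul (2 * N)
  have h2 := Step_dedekindPsi_ne_zero (2 * N)
  rw [Fermat.Agent.S20.AR.dedekindPsi_mul_of_dvd (NeZero.ne (2 * N)) (Dvd.intro N rfl)
    (by norm_num)] at h1
  have h3 := Nat.eq_of_mul_eq_mul_right (Nat.pos_of_ne_zero h2) h1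
  have e : 4 * N = 2 * (2 * N) := by ring
  rw [e]
  exact h3

/-- (D2) + (D4). -/
theorem pdivLevel_descent (hp : p.Prime) (h5 : 5 ≤ p) (hA : A.LiesOverPrime p) {M0 : ℕ}
    [NeZero M0] (hpM : ¬ p ∣ M0) {y : LaurentSeries Qb} (hy : y ∈ FF Qb M0)
    (H : PDivLevel A (p * (4 * M0)) p y) : PDivLevel A M0 p y := by
  have h4 : NeZero (4 * M0) := ⟨mul_ne_zero (by norm_num) (NeZero.ne M0)⟩
  have h2 : NeZero (2 * M0) := ⟨mul_ne_zero (by norm_num) (NeZero.ne M0)⟩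
  have hp4 : ¬ p ∣ 4 * M0 := by
    intro hdvd
    rcases (hp.dvd_mul).1 hdvd with h | h
    · have := Nat.le_of_dvd (by norm_num) h
      omega
    · exact hpM h
  have d1 : M0 ∣ 2 * M0 := Dvd.intro_left 2 rfl
  have d2 : 2 * M0 ∣ 4 * M0 := ⟨2, by ring⟩
  have H4 := pdivLevel_descent_p hp hA hp4 (BR10_FF_mono (d1.trans d2) hy) H
  have H2 := pdivLevel_descent_of_lt hp d2 (by rw [relfinrank_four]; omega) (BR10_FF_mono d1 hy) H4
  exact pdivLevel_descent_of_lt hp d1 (lt_of_le_of_lt (relfinrank_two_le M0) (by omega)) hy H2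

/-- the property only depends on the class modulo functions which are near one. -/
theorem PDivLevel.of_nearOne (hp : 0 < p) {N : ℕ} {y y' : LaurentSeries Qb}
    (H : PDivLevel A N p y) (h : NearOne A N (y' / y)) : PDivLevel A N p y' := by
  obtain ⟨hy, H⟩ := H
  have hmem : y' / y ∈ FF Qb N := by
    obtain ⟨c, a, b, -, ha, hb, -, -, -, e⟩ := h
    rw [e]
    exact mul_mem (C_mem_FF c) (div_mem ha hb)
  have hy0 : y ≠ 0 := by
    intro h0
    obtain ⟨𝒪, h𝒪⟩ := exists_isGaussRing A N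
    obtain ⟨c, -, hcm⟩ := (nearOne_iff h𝒪 (⟨y' / y, hmem⟩ : FF Qb N)).mp h
    have e : (⟨y' / y, hmem⟩ : FF Qb N) = 0 := Subtype.ext (by
      change y' / y = 0
      rw [h0, div_zero])
    rw [e, zero_div, zero_sub, ValuationSubring.mem_nonunits_iff, Valuation.map_neg, map_one] at hcm
    exact lt_irrefl _ hcm
  have hy'e : y' = y * (y' / y) := by rw [mul_div_cancel₀ _ hy0]
  have hy' : y' ∈ FF Qb N := by
    rw [hy'e]
    exact mul_mem hy hmem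
  refine ⟨hy', fun 𝒪 h𝒪 V hV => ?_⟩
  obtain ⟨c, hc, hcm⟩ := (nearOne_iff h𝒪 (⟨y' / y, hmem⟩ : FF Qb N)).mp h
  obtain ⟨hu1, hu2⟩ := unit_of_sub_one_mem hV hcm
  obtain ⟨γ, hγ⟩ := IsAlgClosed.exists_pow_nat_eq c hp
  have hc' : algebraMap Qb (FF Qb N) c ≠ 0 := by
    rw [Ne, map_eq_zero]
    exact hc
  have e : (⟨y', hy'⟩ : FF Qb N) = (⟨y, hy⟩ : FF Qb N) * (algebraMap Qb (FF Qb N) γ) ^ p *
      ((⟨y' / y, hmem⟩ : FF Qb N) / algebraMap Qb (FF Qb N) c) := by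
    rw [← map_pow, hγ, mul_assoc, mul_div_cancel₀ _ hc']
    exact Subtype.ext hy'e
  rw [e]
  exact vdiv_mul_unit ((H 𝒪 h𝒪 V hV).mul (LP.EIS.vdiv_pow_self V p _)) hu1 hu2

theorem PDivLevel.mono_hyp {N N' : ℕ} (e : N = N') {y : LaurentSeries Qb}
    (H : PDivLevel A N p y) : PDivLevel A N' p y := e ▸ H

end Fermat.Agent.LP.Desc
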