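import Fermat.Agent.LP.EIS.VDefs
import Fermat.Agent.LP.EIS.VExt

/-!
# LP-DESC, file Val: abstract valuation theory (Mathlib + `LP/EIS/VDefs`, `LP/EIS/VExt`)

`EIS.VDiv V p y`: `y` is a unit of `V` times a `p`-th power (`= LP.PDivAt`, definitionally).

* `sum_ne_zero_of_distinct`: ultrametric inequality.
* `vdiv_descent_of_finrank_lt` (D4): `v = V.valuation`, `a'` with `a'^p x` a unit of `V`.  If there is `a ∈ Kˣ` with `v a' = v a` we are done:
  `a^p x = (a/a')^p (a'^p x)`.  Otherwise `1, a', …, a'^(p-1)` are linearly independent over `K` (so `p ≤ [K':K]`): in a relation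
  `∑ c_i a'^i = 0` the values of the nonzero terms are pairwise distinct: `v (c_i a'^i) = v (c_j a'^j)`, `i < j < p`, gives
  `v (a'^(j-i)) ∈ v(Kˣ)`; also `v (a'^p) = v x⁻¹ ∈ v(Kˣ)`; Bezout `s (j-i) + t p = 1` gives `v a' ∈ v(Kˣ)`.
* `vdiv_descent_of_res` (equal residue fields and value groups): `a' = f (1 + m)`, `m ∈ 𝔪_𝒪' ⊆ 𝔪_V`, so `f^p x` is a unit of `V`, hence of `V₀`.
-/

set_option autoImplicit false

namespace Fermat.Agent.LP.Desc

open Fermat.Agent.LP.EIS

section one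

variable {F : Type*} [Field F]

theorem nonunits_subset_of_le {V 𝒪 : ValuationSubring F} (h : V ≤ 𝒪) {x : F}
    (hx : x ∈ 𝒪.nonunits) : x ∈ V.nonunits :=
  ValuationSubring.nonunits_le_nonunits.2 h hx

/-- `1 + 𝔪_𝒪 ⊆ Vˣ` for `V ≤ 𝒪`. -/
theorem unit_of_sub_one_mem {V 𝒪 : ValuationSubring F} (h : V ≤ 𝒪) {x : F}
    (hx : x - 1 ∈ 𝒪.nonunits) : x ∈ V ∧ x⁻¹ ∈ V := by
  have h1 : V.valuation (x - 1) < 1 :=
    (ValuationSubring.mem_nonunits_iff _).1 (nonunits_subset_of_le h hx)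
  have h2 : V.valuation x = 1 := by
    have := Valuation.map_one_add_of_lt V.valuation h1
    rwa [add_sub_cancel] at this
  refine ⟨(V.valuation_le_one_iff _).1 h2.le, (V.valuation_le_one_iff _).1 ?_⟩
  rw [map_inv₀, h2, inv_one]

theorem vdiv_mul_unit {V : ValuationSubring F} {p : ℕ} {y e : F} (hy : VDiv V p y)
    (he : e ∈ V) (he' : e⁻¹ ∈ V) : VDiv V p (y * e) := by
  obtain ⟨a, ha, h1, h2⟩ := hy
  refine ⟨a, ha, ?_, ?_⟩
  · rw [← mul_assoc]
    exact V.mul_mem _ _ h1 he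
  · rw [← mul_assoc, mul_inv]
    exact V.mul_mem _ _ h2 he'

/-- a finite sum whose nonzero terms have pairwise distinct valuations is nonzero. -/
theorem sum_ne_zero_of_distinct {Γ : Type*} [LinearOrderedCommGroupWithZero Γ] (v : Valuation F Γ)
    {ι : Type*} (s : Finset ι) (g : ι → F) (hex : ∃ i ∈ s, g i ≠ 0)
    (hd : ∀ i ∈ s, ∀ j ∈ s, i ≠ j → g i ≠ 0 → g j ≠ 0 → v (g i) ≠ v (g j)) :
    ∑ i ∈ s, g i ≠ 0 := by
  classical
  obtain ⟨i0, hi0, hg0⟩ := hex
  obtain ⟨j, hj, hmax⟩ := Finset.exists_max_image s (fun i => v (g i)) ⟨i0, hi0⟩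
  have hgj : g j ≠ 0 := by
    intro h
    have h1 := hmax i0 hi0
    simp only [h, map_zero] at h1
    exact (v.ne_zero_iff.mpr hg0) (le_zero_iff.mp h1)
  have hlt : ∀ i ∈ s \ {j}, v (g i) < v (g j) := by
    intro i hi
    rw [Finset.mem_sdiff, Finset.mem_singleton] at hi
    by_cases hgi : g i = 0
    · rw [hgi, map_zero]
      exact zero_lt_iff.mpr (v.ne_zero_iff.mpr hgj)
    · exact lt_of_le_of_ne (hmax i hi.1) (hd i hi.1 j hj hi.2 hgi hgj)
  have h2 := v.map_sum_eq_of_lt hj hlt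
  intro h0
  rw [h0, map_zero] at h2
  exact (v.ne_zero_iff.mpr hgj) h2.symm

end one

section two

variable {K K' : Type*} [Field K] [Field K'] [Algebra K K']

theorem Val_exists_of_eq {p : ℕ} (hp : p.Prime) {Γ : Type*} [LinearOrderedCommGroupWithZero Γ]
    (v : Valuation K' Γ) {a' : K'} (ha' : a' ≠ 0) {x : K} (hx : x ≠ 0)
    (hval : v (a' ^ p * algebraMap K K' x) = 1) {i j : ℕ} (hij : i < j) (hj : j < p) {ci cj : K}
    (hci : ci ≠ 0) (hcj : cj ≠ 0) (h : v (ci • a' ^ i) = v (cj • a' ^ j)) :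
    ∃ a : K, a ≠ 0 ∧ v a' = v (algebraMap K K' a) := by
  obtain ⟨d, rfl⟩ : ∃ d, j = i + d := ⟨j - i, by omega⟩
  have hd0 : 0 < d := by omega
  have hdp : d < p := by omega
  have hcop : IsCoprime (d : ℤ) (p : ℤ) := by
    rw [Nat.isCoprime_iff_coprime]
    exact Nat.Coprime.symm ((Nat.Prime.coprime_iff_not_dvd hp).mpr
      (fun hdvd => absurd (Nat.le_of_dvd hd0 hdvd) (by omega)))
  obtain ⟨s, t, hst⟩ := hcop
  have h1 : v (a' ^ d) = v (algebraMap K K' (ci / cj)) := by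
    rw [Algebra.smul_def, Algebra.smul_def, map_mul, map_mul, pow_add, map_mul] at h
    have hi : v (a' ^ i) ≠ 0 := v.ne_zero_iff.mpr (pow_ne_zero i ha')
    have hcj' : v (algebraMap K K' cj) ≠ 0 := v.ne_zero_iff.mpr ((map_ne_zero _).mpr hcj)
    rw [map_div₀, map_div₀, eq_div_iff hcj']
    apply mul_right_cancel₀ hi
    rw [h, mul_comm (v (a' ^ d)), mul_assoc, mul_comm (v (a' ^ d))]
  have h2 : v (a' ^ p) = v (algebraMap K K' x⁻¹) := by
    rw [map_mul] at hval
    rw [map_inv₀, map_inv₀]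
    exact eq_inv_of_mul_eq_one_left hval
  refine ⟨(ci / cj) ^ s * (x⁻¹) ^ t, mul_ne_zero (zpow_ne_zero _ (div_ne_zero hci hcj))
    (zpow_ne_zero _ (inv_ne_zero hx)), ?_⟩
  have e : a' = (a' ^ d) ^ s * (a' ^ p) ^ t := by
    rw [← zpow_natCast, ← zpow_natCast, ← zpow_mul, ← zpow_mul, ← zpow_add₀ ha',
      mul_comm (d : ℤ), mul_comm (p : ℤ), hst, zpow_one]
  conv_lhs => rw [e]
  rw [map_mul, map_zpow₀, map_zpow₀, h1, h2, map_mul (algebraMap K K'), map_mul v,
    map_zpow₀ (algebraMap K K'), map_zpow₀ (algebraMap K K'), map_zpow₀ v, map_zpow₀ v]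

/-- (D4) the index lemma. -/
theorem vdiv_descent_of_finrank_lt [FiniteDimensional K K'] {p : ℕ} (hp : p.Prime)
    (hd : Module.finrank K K' < p) (V : ValuationSubring K') (V₀ : ValuationSubring K)
    (hV : V.comap (algebraMap K K') = V₀) {x : K}
    (h : VDiv V p (algebraMap K K' x)) : VDiv V₀ p x := by
  classical
  subst hV
  by_cases hx : x = 0
  · subst hx
    exact ⟨1, one_ne_zero, by simp, by simp⟩
  obtain ⟨a', ha', h1, h2⟩ := h
  have hX : algebraMap K K' x ≠ 0 := (map_ne_zero _).mpr hx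
  have hval : V.valuation (a' ^ p * algebraMap K K' x) = 1 :=
    (mem_and_inv_mem_iff V (mul_ne_zero (pow_ne_zero p ha') hX)).mp ⟨h1, h2⟩
  by_cases hex : ∃ a : K, a ≠ 0 ∧ V.valuation a' = V.valuation (algebraMap K K' a)
  · obtain ⟨a, ha, hva⟩ := hex
    have hne : algebraMap K K' a ^ p * algebraMap K K' x ≠ 0 :=
      mul_ne_zero (pow_ne_zero p ((map_ne_zero _).mpr ha)) hX
    have hv1 : V.valuation (algebraMap K K' a ^ p * algebraMap K K' x) = 1 := by
      rw [map_mul, map_pow, ← hva, ← map_pow, ← map_mul]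
      exact hval
    obtain ⟨h3, h4⟩ := (mem_and_inv_mem_iff V hne).mpr hv1
    refine ⟨a, ha, ?_, ?_⟩
    · rw [ValuationSubring.mem_comap, map_mul, map_pow]
      exact h3
    · rw [ValuationSubring.mem_comap, map_inv₀, map_mul, map_pow]
      exact h4
  · exfalso
    have hli : LinearIndependent K (fun i : Fin p => a' ^ (i : ℕ)) := by
      rw [Fintype.linearIndependent_iff]
      intro c hc
      by_contra hcon
      push Not at hcon
      obtain ⟨i0, hi0⟩ := hcon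
      refine sum_ne_zero_of_distinct V.valuation Finset.univ (fun i : Fin p => c i • a' ^ (i : ℕ))
        ⟨i0, Finset.mem_univ _, smul_ne_zero hi0 (pow_ne_zero _ ha')⟩ ?_ hc
      intro i _ j _ hij hgi hgj heq
      have hci : c i ≠ 0 := fun h0 => hgi (by rw [h0, zero_smul])
      have hcj : c j ≠ 0 := fun h0 => hgj (by rw [h0, zero_smul])
      have hij' : (i : ℕ) ≠ (j : ℕ) := fun h0 => hij (Fin.ext h0)
      rcases lt_or_gt_of_ne hij' with hlt | hlt
      · exact hex (Val_exists_of_eq hp V.valuation ha' hx hval hlt j.2 hci hcj heq)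
      · exact hex (Val_exists_of_eq hp V.valuation ha' hx hval hlt i.2 hcj hci heq.symm)
    have hcard := hli.fintype_card_le_finrank
    rw [Fintype.card_fin] at hcard
    omega

/-- equal residue fields and equal value groups. -/
theorem vdiv_descent_of_res (𝒪' V : ValuationSubring K') (hle : V ≤ 𝒪')
    (V₀ : ValuationSubring K) (hV : V.comap (algebraMap K K') = V₀)
    (hres : ∀ z : K', z ≠ 0 → ∃ f : K, f ≠ 0 ∧ z / algebraMap K K' f - 1 ∈ 𝒪'.nonunits)
    {p : ℕ} {x : K} (h : VDiv V p (algebraMap K K' x)) : VDiv V₀ p x := by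
  obtain ⟨a', ha', h1, h2⟩ := h
  obtain ⟨f, hf, hz⟩ := hres a' ha'
  obtain ⟨u1, u2⟩ := unit_of_sub_one_mem hle hz
  have hf' : algebraMap K K' f ≠ 0 := by
    rwa [Ne, map_eq_zero]
  have e : algebraMap K K' (f ^ p * x)
      = (a' ^ p * algebraMap K K' x) * ((a' / algebraMap K K' f)⁻¹) ^ p := by
    rw [map_mul, map_pow, inv_div, div_pow]
    field_simp
  subst hV
  refine ⟨f, hf, ?_, ?_⟩
  · rw [ValuationSubring.mem_comap, e]
    exact V.mul_mem _ _ h1 (pow_mem u2 p)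
  · rw [ValuationSubring.mem_comap, map_inv₀, e, mul_inv, ← inv_pow, inv_inv]
    exact V.mul_mem _ _ h2 (pow_mem u1 p)

end two

end Fermat.Agent.LP.Desc
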